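import Fermat.Agent.LT.A2.H467.DataSpec
import Fermat.Agent.LT.A2.H751.TorusMeas

/-!
# Row LT, tower A2, leaf A2.03.1.1.03 `WX467.TorusMeasC` (helper621)

OFF-MAIN.  ADAPTER: the leaf `TorusMeasC` of the cut `LT/A2/H467/DataSpec.lean` (helper467,
sha256 72cb2b55afa8) from the pre-leaf TORUS-MEAS of helper751 (`LT/A2/H751/TorusMeas.lean`,
sha256 1d583b95ef2f: `exists_measured751`, `isMeasured_of751`).

    torusMeasC621 : WX467.TorusMeasC                      (VERBATIM, no hypothesis)

No hole, nothing assumed; both files are imported byte-identical.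
-/

set_option autoImplicit false

open IsDedekindDomain NumberField MeasureTheory

noncomputable section

namespace Fermat.Agent.LT.A2.H621

open Fermat.Agent.LT.H556 Fermat.Agent.LT.A2 Fermat.Agent.LT

/-- A datum whose components are measures of covolume one and torus-measured is measured
(the form of `isMeasured_of751` with the components as parameters). -/
theorem isMeasured_of_components621 {K : Type} [Field K] [NumberField K] {t n : K}
    {μ : @Measure (A0.Adl K) (borel (A0.Adl K))} {μT : @Measure (A0.G K) (borel (A0.G K))}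
    {DT : Set (A0.G K)} (hμ : IsCovolOne μ) (hT : H751.TorusMeasured751 t n μT DT)
    (D : KData K) (ht : D.t = t) (hn : D.n = n) (h1 : D.μ = μ) (h2 : D.μT = μT)
    (h3 : D.DT = DT) : D.IsMeasured := by
  subst ht hn h1 h2 h3
  exact H751.isMeasured_of751 D hμ hT

/-- **A2.03.1.1.03 TORUS-MEAS**, the leaf of helper467's cut, VERBATIM. -/
theorem torusMeasC621 : WX467.TorusMeasC := by
  intro K _ _ t n hT1 hirr
  obtain ⟨μ, μT, DT, hμ, hT⟩ := H751.exists_measured751 t n hirr hT1
  exact ⟨μ, μT, DT, fun D ht hn h1 h2 h3 =>
    isMeasured_of_components621 hμ hT D ht hn h1 h2 h3⟩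

end Fermat.Agent.LT.A2.H621

end
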